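import Mathlib

/-!
# The Witt group of a field

The Witt group is presented by the classes `⟨a⟩` with the relations `⟨a b²⟩ = ⟨a⟩`,
`⟨a⟩ + ⟨-a⟩ = 0` and `⟨a⟩ + ⟨b⟩ = ⟨a + b⟩ + ⟨a b (a + b)⟩`.
-/

set_option autoImplicit false

noncomputable section

namespace Fermat.Agent.WittRat

/-- A map with the relations of the Witt group. -/
structure WittMap (F : Type*) [Field F] (A : Type*) [AddCommGroup A] where
  /-- The value at a unit. -/
  toFun : Fˣ → A
  mul_sq : ∀ a b, toFun (a * b ^ 2) = toFun a
  add_neg : ∀ a, toFun a + toFun (-a) = 0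
  binary : ∀ a b c : Fˣ, (a : F) + b = c → toFun a + toFun b = toFun c + toFun (a * b * c)

namespace WittMap

variable {F : Type*} [Field F] {A : Type*} [AddCommGroup A]

instance : CoeFun (WittMap F A) fun _ => Fˣ → A := ⟨toFun⟩

variable (s : WittMap F A)

theorem apply_neg (a : Fˣ) : s (-a) = -s a := eq_neg_of_add_eq_zero_right (s.add_neg a)

theorem sq (b : Fˣ) : s (b ^ 2) = s 1 := by rw [← one_mul (b ^ 2), s.mul_sq]

theorem eq_of_div_sq {a b c : Fˣ} (h : a = b * c ^ 2) : s a = s b := by rw [h, s.mul_sq]

end WittMap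

variable (F : Type*) [Field F]

/-- The relations of the Witt group. -/
def wittRel : AddSubgroup (FreeAbelianGroup Fˣ) :=
  AddSubgroup.closure
    ({z | ∃ a b, z = .of (a * b ^ 2) - .of a} ∪ {z | ∃ a, z = .of a + .of (-a)} ∪
      {z | ∃ a b c : Fˣ, (a : F) + b = c ∧ z = .of a + .of b - (.of c + .of (a * b * c))})

/-- **The Witt group of a field**, by generators and relations. -/
def W : Type _ := FreeAbelianGroup Fˣ ⧸ wittRel F

instance : AddCommGroup (W F) :=
  inferInstanceAs (AddCommGroup (FreeAbelianGroup Fˣ ⧸ wittRel F))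

/-- The quotient map. -/
def W.quot : FreeAbelianGroup Fˣ →+ W F := QuotientAddGroup.mk' (wittRel F)

theorem W.quot_surjective : Function.Surjective (W.quot F) := QuotientAddGroup.mk'_surjective _

theorem W.quot_eq_zero {x : FreeAbelianGroup Fˣ} (h : x ∈ wittRel F) : W.quot F x = 0 :=
  (QuotientAddGroup.eq_zero_iff x).2 h

/-- The universal map. -/
def wittClass : WittMap F (W F) where
  toFun a := W.quot F (.of a)
  mul_sq a b := by
    rw [← sub_eq_zero, ← map_sub]
    exact W.quot_eq_zero F (AddSubgroup.subset_closure (Or.inl (Or.inl ⟨a, b, rfl⟩)))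
  add_neg a := by
    rw [← map_add]
    exact W.quot_eq_zero F (AddSubgroup.subset_closure (Or.inl (Or.inr ⟨a, rfl⟩)))
  binary a b c h := by
    rw [← sub_eq_zero, ← map_add, ← map_add, ← map_sub]
    exact W.quot_eq_zero F (AddSubgroup.subset_closure (Or.inr ⟨a, b, c, h, rfl⟩))

variable {F} {A : Type*} [AddCommGroup A]

/-- The homomorphism of a map with the relations. -/
def lift (s : WittMap F A) : W F →+ A :=
  QuotientAddGroup.lift (wittRel F) (FreeAbelianGroup.lift s.toFun) (by
    rw [wittRel, AddSubgroup.closure_le]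
    rintro z ((⟨a, b, rfl⟩ | ⟨a, rfl⟩) | ⟨a, b, c, h, rfl⟩)
    · simp [s.mul_sq]
    · simp [s.add_neg]
    · simp [s.binary a b c h])

@[simp] theorem lift_wittClass (s : WittMap F A) (a : Fˣ) : lift s (wittClass F a) = s a := by
  show FreeAbelianGroup.lift _ (FreeAbelianGroup.of a) = _
  rw [FreeAbelianGroup.lift_apply_of]

theorem hom_ext {f g : W F →+ A} (h : ∀ a, f (wittClass F a) = g (wittClass F a)) : f = g := by
  refine AddMonoidHom.ext fun x => ?_
  obtain ⟨y, rfl⟩ := W.quot_surjective F x
  induction y using FreeAbelianGroup.induction_on with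
  | zero => simp
  | of a => exact h a
  | neg a ih => rw [map_neg, map_neg, map_neg, ih]
  | add y z hy hz => rw [map_add, map_add, map_add, hy, hz]

theorem closure_range_wittClass : AddSubgroup.closure (Set.range (wittClass F)) = ⊤ := by
  refine eq_top_iff.2 fun x _ => ?_
  obtain ⟨y, rfl⟩ := W.quot_surjective F x
  clear ‹_ ∈ ⊤›
  induction y using FreeAbelianGroup.induction_on with
  | zero => rw [map_zero]; exact zero_mem _
  | of a => exact AddSubgroup.subset_closure ⟨a, rfl⟩
  | neg a ih => rw [map_neg]; exact neg_mem ih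
  | add y z hy hz => rw [map_add]; exact add_mem hy hz

/-- Multiplication of a class by `⟨c⟩`. -/
def scale (c : Fˣ) : W F →+ W F :=
  lift
    { toFun := fun a => wittClass F (c * a)
      mul_sq := fun a b => by rw [← mul_assoc, (wittClass F).mul_sq]
      add_neg := fun a => by rw [mul_neg, (wittClass F).add_neg]
      binary := fun x y z h => by
        rw [(wittClass F).binary (c * x) (c * y) (c * z) (by
          push_cast
          rw [← mul_add, h])]
        refine congrArg _ ((wittClass F).eq_of_div_sq (c := c) ?_)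
        rw [pow_two]
        ac_rfl }

@[simp] theorem scale_wittClass (c a : Fˣ) :
    scale c (wittClass F a) = wittClass F (c * a) := lift_wittClass _ a

end Fermat.Agent.WittRat
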