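import Fermat.Agent.WittRat.Group
import Fermat.Agent.Pfister.Witt

/-!
# The Witt group and isometry

The presented group is the Witt group: two diagonal forms of the same rank are isometric if and
only if their classes agree.
-/

set_option autoImplicit false

noncomputable section

open QuadraticMap

namespace Fermat.Agent.WittRat

variable {F : Type*} [Field F]

/-- The diagonal form of a family of units. -/
abbrev diag {n : ℕ} (w : Fin n → Fˣ) : QuadraticForm F (Fin n → F) :=
  weightedSumSquares F fun i => (w i : F)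

/-- The class of a diagonal form. -/
def cls {n : ℕ} (w : Fin n → Fˣ) : W F := ∑ i, wittClass F (w i)

theorem cls_cons {n : ℕ} (a : Fˣ) (w : Fin n → Fˣ) :
    cls (Fin.cons a w) = wittClass F a + cls w := by
  simp [cls, Fin.sum_univ_succ]

theorem cls_append {n m : ℕ} (w : Fin n → Fˣ) (v : Fin m → Fˣ) :
    cls (Fin.append w v) = cls w + cls v := by
  simp [cls, Fin.sum_univ_add]

theorem diag_congr {n : ℕ} {w v : Fin n → Fˣ} (h : w = v) : Equivalent (diag w) (diag v) := by
  subst h
  exact ⟨.refl _⟩

theorem diag_append {n m : ℕ} (w : Fin n → Fˣ) (v : Fin m → Fˣ) :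
    Equivalent (diag (Fin.append w v)) ((diag w).prod (diag v)) :=
  ⟨{ toFun := fun x => (fun i => x (Fin.castAdd m i), fun i => x (Fin.natAdd n i))
     map_add' := fun _ _ => rfl
     map_smul' := fun _ _ => rfl
     invFun := fun p => Fin.append p.1 p.2
     left_inv := fun _ => Fin.append_castAdd_natAdd
     right_inv := fun p => Prod.ext (funext fun i => Fin.append_left _ _ i)
       (funext fun i => Fin.append_right _ _ i)
     map_app' := fun x => by simp [Fin.sum_univ_add] }⟩

theorem diag_cons_congr {n m : ℕ} (a : Fˣ) {w : Fin n → Fˣ} {v : Fin m → Fˣ}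
    (h : Equivalent (diag w) (diag v)) :
    Equivalent (diag (Fin.cons a w)) (diag (Fin.cons a v)) := by
  obtain ⟨e⟩ := h
  have h1 : ∀ {k : ℕ} (u : Fin k → Fˣ),
      Equivalent (diag (Fin.cons a u)) ((((a : F) • QuadraticMap.sq).prod (diag u))) := fun u =>
    ⟨FA.Pfister.consIsometry (fun i => ((Fin.cons a u : Fin (_ + 1) → Fˣ) i : F))⟩
  exact (h1 w).trans ((Equivalent.prod ⟨.refl _⟩ ⟨e⟩).trans (h1 v).symm)

theorem diag_mul_sq {n : ℕ} (w s : Fin n → Fˣ) :
    Equivalent (diag fun i => w i * s i ^ 2) (diag w) :=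
  ⟨{ toFun := fun x i => (s i : F) * x i
     map_add' := fun x y => funext fun i => mul_add _ _ _
     map_smul' := fun c x => funext fun i => mul_left_comm _ _ _
     invFun := fun x i => ((s i)⁻¹ : Fˣ) * x i
     left_inv := fun x => funext fun i => Units.inv_mul_cancel_left _ _
     right_inv := fun x => funext fun i => Units.mul_inv_cancel_left _ _
     map_app' := fun x => by
       simp only [weightedSumSquares_apply, smul_eq_mul, Units.val_mul, Units.val_pow_eq_pow_val]
       exact Finset.sum_congr rfl fun i _ => by ring }⟩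

theorem diag_swap {n : ℕ} (a b : Fˣ) (w : Fin n → Fˣ) :
    Equivalent (diag (Fin.cons a (Fin.cons b w))) (diag (Fin.cons b (Fin.cons a w))) :=
  ⟨{ toFun := fun x => Fin.cons (x 1) (Fin.cons (x 0) fun i => x i.succ.succ)
     map_add' := fun x y => funext fun i => by
       cases i using Fin.cases with
       | zero => rfl
       | succ i => cases i using Fin.cases <;> rfl
     map_smul' := fun c x => funext fun i => by
       cases i using Fin.cases with
       | zero => rfl
       | succ i => cases i using Fin.cases <;> rfl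
     invFun := fun x => Fin.cons (x 1) (Fin.cons (x 0) fun i => x i.succ.succ)
     left_inv := fun x => funext fun i => by
       cases i using Fin.cases with
       | zero => rfl
       | succ i => cases i using Fin.cases <;> rfl
     right_inv := fun x => funext fun i => by
       cases i using Fin.cases with
       | zero => rfl
       | succ i => cases i using Fin.cases <;> rfl
     map_app' := fun x => by
       simp [Fin.sum_univ_succ, Fin.succ_zero_eq_one]
       ring }⟩

/-- `⟨a, b⟩ ≅ ⟨a + b, a b (a + b)⟩`. -/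
theorem diag_binary {n : ℕ} (a b c : Fˣ) (h : (a : F) + b = c) (w : Fin n → Fˣ) :
    Equivalent (diag (Fin.cons c (Fin.cons (a * b * c) w)))
      (diag (Fin.cons a (Fin.cons b w))) :=
  ⟨{ toFun := fun x => Fin.cons (x 0 - b * x 1) (Fin.cons (x 0 + a * x 1) fun i => x i.succ.succ)
     map_add' := fun x y => funext fun i => by
       cases i using Fin.cases with
       | zero => simp; ring
       | succ i => cases i using Fin.cases <;> simp; ring
     map_smul' := fun k x => funext fun i => by
       cases i using Fin.cases with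
       | zero => simp; ring
       | succ i => cases i using Fin.cases <;> simp; ring
     invFun := fun x => Fin.cons ((a * x 0 + b * x 1) / c)
       (Fin.cons ((x 1 - x 0) / c) fun i => x i.succ.succ)
     left_inv := fun x => funext fun i => by
       cases i using Fin.cases with
       | zero =>
         simp only [Fin.cons_zero, Fin.cons_one]
         field_simp
         linear_combination x 0 * h
       | succ i =>
         cases i using Fin.cases with
         | zero =>
           simp only [Fin.cons_zero, Fin.cons_succ, Fin.cons_one, Fin.succ_zero_eq_one]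
           field_simp
           linear_combination x 1 * h
         | succ i => rfl
     right_inv := fun x => funext fun i => by
       cases i using Fin.cases with
       | zero =>
         simp only [Fin.cons_zero, Fin.cons_one]
         field_simp
         linear_combination x 0 * h
       | succ i =>
         cases i using Fin.cases with
         | zero =>
           simp only [Fin.cons_zero, Fin.cons_succ, Fin.cons_one, Fin.succ_zero_eq_one]
           field_simp
           linear_combination x 1 * h
         | succ i => rfl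
     map_app' := fun x => by
       simp only [weightedSumSquares_apply, Fin.sum_univ_succ, Fin.cons_zero, Fin.cons_succ,
         Fin.succ_zero_eq_one, smul_eq_mul, Units.val_mul]
       linear_combination (x 0 * x 0 + (a : F) * b * (x 1 * x 1)) * h }⟩

/-- A represented unit splits off, in the form and in the class. -/
theorem exists_split : ∀ {n : ℕ} (w : Fin (n + 1) → Fˣ) (b : Fˣ) (x : Fin (n + 1) → F),
    diag w x = b → ∃ c : Fin n → Fˣ,
      Equivalent (diag w) (diag (Fin.cons b c)) ∧ cls w = cls (Fin.cons b c)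
  | 0, w, b, x, hx => by
    simp only [weightedSumSquares_apply, Fin.sum_univ_succ, Fin.sum_univ_zero, add_zero,
      smul_eq_mul] at hx
    have hx0 : x 0 ≠ 0 := fun e => b.ne_zero (by rw [← hx, e]; ring)
    have hb : ∀ i, w i * Units.mk0 (x 0) hx0 ^ 2 = (Fin.cons b Fin.elim0 : Fin 1 → Fˣ) i := by
      intro i
      rw [Fin.fin_one_eq_zero i, Fin.cons_zero]
      exact Units.ext (by simp [← hx, pow_two])
    refine ⟨Fin.elim0, (diag_mul_sq w fun _ => Units.mk0 (x 0) hx0).symm.trans
      (diag_congr (funext hb)), ?_⟩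
    exact Finset.sum_congr rfl fun i _ => ((wittClass F).eq_of_div_sq (hb i).symm).symm
  | n + 1, w, b, x, hx => by
    set w' : Fin (n + 1) → Fˣ := Fin.tail w
    have hw : w = Fin.cons (w 0) w' := (Fin.cons_self_tail w).symm
    have hsum : diag w x = w 0 * (x 0 * x 0) + diag w' (Fin.tail x) := by
      simp [Fin.sum_univ_succ (n := n + 1), w', Fin.tail]
    rw [hsum] at hx
    by_cases ht : diag w' (Fin.tail x) = 0
    · rw [ht, add_zero] at hx
      have hx0 : x 0 ≠ 0 := fun e => b.ne_zero (by rw [← hx, e]; ring)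
      have hb : w 0 * Units.mk0 (x 0) hx0 ^ 2 = b := Units.ext (by simp [← hx, pow_two])
      refine ⟨w', ?_, ?_⟩
      · refine ((diag_congr ?_).trans
          (diag_mul_sq w (Fin.cons (Units.mk0 (x 0) hx0) 1 : Fin (n + 2) → Fˣ))).symm
        funext i
        cases i using Fin.cases with
        | zero => simp [hb]
        | succ i => simp [w', Fin.tail]
      · conv_lhs => rw [hw]
        rw [cls_cons, cls_cons, (wittClass F).eq_of_div_sq hb.symm]
    obtain ⟨c, hc, hcl⟩ := exists_split w' (Units.mk0 _ ht) (Fin.tail x) rfl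
    have he : Equivalent (diag w) (diag (Fin.cons (w 0) (Fin.cons (Units.mk0 _ ht) c))) :=
      (diag_congr hw).trans (diag_cons_congr _ hc)
    have hcle : cls w = cls (Fin.cons (w 0) (Fin.cons (Units.mk0 _ ht) c)) := by
      conv_lhs => rw [hw]
      rw [cls_cons, hcl, ← cls_cons]
    by_cases hx0 : x 0 = 0
    · have hb : Units.mk0 _ ht = b := Units.ext (by simp [← hx, hx0])
      rw [hb] at he hcle
      exact ⟨Fin.cons (w 0) c, he.trans (diag_swap _ _ _), by
        rw [hcle, cls_cons, cls_cons, cls_cons, cls_cons, add_left_comm]⟩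
    set a := w 0 * Units.mk0 (x 0) hx0 ^ 2
    set t := Units.mk0 _ ht
    have hab : (a : F) + t = b := by
      rw [← hx]
      simp [a, t, pow_two]
    refine ⟨Fin.cons (a * t * b) c, he.trans (Equivalent.trans ?_
      (diag_binary a t b hab c).symm), ?_⟩
    · refine ((diag_congr ?_).trans
        (diag_mul_sq _ (Fin.cons (Units.mk0 (x 0) hx0) 1 : Fin (n + 2) → Fˣ))).symm
      funext i
      cases i using Fin.cases with
      | zero => simp [a]
      | succ i => simp
    · rw [hcle, cls_cons, cls_cons, cls_cons, cls_cons, ← add_assoc, ← add_assoc,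
        ← (wittClass F).binary a t b hab, (wittClass F).mul_sq]

/-- **Isometric forms have the same class.** -/
theorem cls_eq_of_equivalent (h2 : (2 : F) ≠ 0) :
    ∀ {n : ℕ} {w v : Fin n → Fˣ}, Equivalent (diag w) (diag v) → cls w = cls v
  | 0, w, v, _ => by simp [cls]
  | n + 1, w, v, ⟨e⟩ => by
    classical
    obtain ⟨c, hc, hcl⟩ := exists_split w (v 0) (e.symm (Pi.single 0 1)) (by
      rw [e.symm.map_app, weightedSumSquares_apply, Finset.sum_eq_single 0] <;>
        simp (config := { contextual := true }))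
    have h1 : ∀ u : Fin n → Fˣ, Equivalent (diag (Fin.cons (v 0) u))
        ((((v 0 : Fˣ) : F) • QuadraticMap.sq).prod (diag u)) := fun u =>
      ⟨FA.Pfister.consIsometry (fun i => ((Fin.cons (v 0) u : Fin (n + 1) → Fˣ) i : F))⟩
    have h3 : Equivalent (diag (Fin.cons (v 0) c)) (diag (Fin.cons (v 0) (Fin.tail v))) :=
      hc.symm.trans (Equivalent.trans ⟨e⟩ (diag_congr (Fin.cons_self_tail v).symm))
    have := cls_eq_of_equivalent h2 (FA.Pfister.witt_cancel_one h2 (v 0).ne_zero
      ((h1 c).symm.trans (h3.trans (h1 _))))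
    rw [hcl, cls_cons, this, ← cls_cons, Fin.cons_self_tail]

/-! ### Stable isometry -/

/-- A diagonal form of some rank. -/
abbrev Diag (F : Type*) [Field F] : Type _ := Σ n : ℕ, Fin n → Fˣ

/-- The form. -/
abbrev form (d : Diag F) : QuadraticForm F (Fin d.1 → F) := diag d.2

/-- The orthogonal sum. -/
def dAdd (d e : Diag F) : Diag F := ⟨d.1 + e.1, Fin.append d.2 e.2⟩

/-- The opposite form. -/
def dNeg (d : Diag F) : Diag F := ⟨d.1, fun i => -d.2 i⟩

/-- The hyperbolic form of rank `2 k`. -/
abbrev hyp (F : Type*) [Field F] (k : ℕ) : QuadraticForm F ((Fin k → F) × (Fin k → F)) :=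
  (diag fun _ => (1 : Fˣ)).prod (diag fun _ => (-1 : Fˣ))

theorem hyp_add (k l : ℕ) : Equivalent (hyp F (k + l)) ((hyp F k).prod (hyp F l)) := by
  have h : ∀ a : Fˣ, Equivalent (diag fun _ : Fin (k + l) => a)
      ((diag fun _ : Fin k => a).prod (diag fun _ : Fin l => a)) := fun a =>
    (diag_congr (funext fun i => Fin.addCases
      (motive := fun i => a = Fin.append (fun _ : Fin k => a) (fun _ : Fin l => a) i)
      (fun j => (Fin.append_left (fun _ => a) (fun _ => a) j).symm)
      (fun j => (Fin.append_right (fun _ => a) (fun _ => a) j).symm) i)).trans (diag_append _ _)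
  exact ((h 1).prod (h (-1))).trans ⟨IsometryEquiv.prodProdProdComm _ _ _ _⟩

/-- Stable isometry: isometry after adding hyperbolic forms. -/
def Sim (d e : Diag F) : Prop :=
  ∃ k l, Equivalent ((form d).prod (hyp F k)) ((form e).prod (hyp F l))

theorem prod_right_comm {V V' V'' : Type*} [AddCommGroup V] [Module F V] [AddCommGroup V']
    [Module F V'] [AddCommGroup V''] [Module F V''] (P : QuadraticForm F V)
    (Q : QuadraticForm F V') (R : QuadraticForm F V'') :
    Equivalent ((P.prod Q).prod R) ((P.prod R).prod Q) :=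
  Equivalent.trans ⟨FA.Pfister.assocIsometry P Q R⟩
    ((Equivalent.prod ⟨.refl P⟩ ⟨IsometryEquiv.prodComm Q R⟩).trans
      ⟨(FA.Pfister.assocIsometry P R Q).symm⟩)

theorem sim_equivalence : Equivalence (Sim (F := F)) := by
  refine ⟨fun d => ⟨0, 0, ⟨.refl _⟩⟩, fun ⟨k, l, h⟩ => ⟨l, k, h.symm⟩,
    fun {d e f} ⟨k, l, h⟩ ⟨k', l', h'⟩ => ⟨k + k', l' + l, ?_⟩⟩
  have hh : ∀ (g : Diag F) (i j : ℕ), Equivalent ((form g).prod (hyp F (i + j)))
      (((form g).prod (hyp F i)).prod (hyp F j)) := fun g i j =>
    (Equivalent.prod ⟨.refl _⟩ (hyp_add i j)).trans ⟨(FA.Pfister.assocIsometry _ _ _).symm⟩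
  exact (hh d k k').trans ((h.prod ⟨.refl _⟩).trans ((prod_right_comm _ _ _).trans
    ((h'.prod ⟨.refl _⟩).trans (hh f l' l).symm)))

instance stableSetoid : Setoid (Diag F) := ⟨Sim, sim_equivalence⟩

theorem sim_of_equivalent {d e : Diag F} (h : Equivalent (form d) (form e)) : d ≈ e :=
  ⟨0, 0, h.prod ⟨.refl _⟩⟩

theorem sim_add {d d' e e' : Diag F} (h : d ≈ d') (h' : e ≈ e') : dAdd d e ≈ dAdd d' e' := by
  obtain ⟨k, l, h⟩ := h
  obtain ⟨k', l', h'⟩ := h'
  have hh : ∀ (f g : Diag F) (i j : ℕ), Equivalent ((form (dAdd f g)).prod (hyp F (i + j)))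
      (((form f).prod (hyp F i)).prod ((form g).prod (hyp F j))) := fun f g i j =>
    ((diag_append _ _).prod (hyp_add i j)).trans ⟨IsometryEquiv.prodProdProdComm _ _ _ _⟩
  exact ⟨k + k', l + l', (hh d e k k').trans ((h.prod h').trans (hh d' e' l l').symm)⟩

theorem diag_neg_pair (h2 : (2 : F) ≠ 0) {n : ℕ} (w : Fin n → Fˣ) :
    Equivalent ((diag w).prod (diag fun i => -w i)) (hyp F n) :=
  ⟨{ toFun := fun p =>
      (fun i => ((w i + 1) * p.1 i + (w i - 1) * p.2 i) / 2,
        fun i => ((w i - 1) * p.1 i + (w i + 1) * p.2 i) / 2)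
     map_add' := fun p q => Prod.ext (funext fun i => by simp; ring) (funext fun i => by simp; ring)
     map_smul' := fun c p => Prod.ext (funext fun i => by simp; ring)
       (funext fun i => by simp; ring)
     invFun := fun p =>
      (fun i => ((1 + w i) * p.1 i + (1 - w i) * p.2 i) / (2 * w i),
        fun i => ((1 - w i) * p.1 i + (1 + w i) * p.2 i) / (2 * w i))
     left_inv := fun p => Prod.ext (funext fun i => by field_simp; ring)
       (funext fun i => by field_simp; ring)
     right_inv := fun p => Prod.ext (funext fun i => by field_simp; ring)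
       (funext fun i => by field_simp; ring)
     map_app' := fun p => by
      simp only [prod_apply, weightedSumSquares_apply, smul_eq_mul, ← Finset.sum_add_distrib,
        Units.val_one, Units.val_neg]
      refine Finset.sum_congr rfl fun i _ => ?_
      field_simp
      ring }⟩

theorem sim_neg {d e : Diag F} (h : d ≈ e) : dNeg d ≈ dNeg e := by
  obtain ⟨k, l, ⟨g⟩⟩ := h
  refine ⟨k, l, ⟨?_⟩⟩
  let τ : ∀ n k : ℕ, ((Fin n → F) × (Fin k → F) × (Fin k → F)) ≃ₗ[F]
      ((Fin n → F) × (Fin k → F) × (Fin k → F)) := fun n k =>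
    (LinearEquiv.refl F _).prodCongr (LinearEquiv.prodComm F _ _)
  refine ⟨(τ d.1 k).trans (g.toLinearEquiv.trans (τ e.1 l)), fun p => ?_⟩
  set q := g (p.1, p.2.2, p.2.1) with hq
  have := g.map_app (p.1, p.2.2, p.2.1)
  rw [← hq] at this
  show (diag fun i => -e.2 i).prod (hyp F l) (q.1, q.2.2, q.2.1) =
    (diag fun i => -d.2 i).prod (hyp F k) (p.1, p.2.1, p.2.2)
  simp only [prod_apply, weightedSumSquares_apply, smul_eq_mul, Units.val_one, Units.val_neg,
    neg_mul, one_mul, Finset.sum_neg_distrib, form] at this ⊢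
  linear_combination -this

/-- The group of forms up to stable isometry. -/
def Stable (F : Type*) [Field F] : Type _ := Quotient (stableSetoid (F := F))

/-- The stable class. -/
def Stable.mk (d : Diag F) : Stable F := Quotient.mk _ d

variable [h2 : Fact ((2 : F) ≠ 0)]

instance : Add (Stable F) :=
  ⟨Quotient.map₂ dAdd fun _ _ h _ _ h' => sim_add h h'⟩

instance : Zero (Stable F) := ⟨Stable.mk ⟨0, Fin.elim0⟩⟩

instance : Neg (Stable F) := ⟨Quotient.map dNeg fun _ _ h => sim_neg h⟩

instance : AddCommGroup (Stable F) where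
  add_assoc := by
    rintro ⟨a⟩ ⟨b⟩ ⟨c⟩
    refine Quotient.sound (sim_of_equivalent ?_)
    exact (diag_append _ _).trans (((diag_append _ _).prod ⟨.refl _⟩).trans
      (Equivalent.trans ⟨FA.Pfister.assocIsometry _ _ _⟩
        ((Equivalent.prod ⟨.refl _⟩ (diag_append _ _).symm).trans (diag_append _ _).symm)))
  add_comm := by
    rintro ⟨a⟩ ⟨b⟩
    refine Quotient.sound (sim_of_equivalent ?_)
    exact (diag_append _ _).trans
      (Equivalent.trans ⟨IsometryEquiv.prodComm _ _⟩ (diag_append _ _).symm)
  zero_add := by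
    rintro ⟨a⟩
    refine Quotient.sound (sim_of_equivalent ?_)
    exact (diag_append (Fin.elim0 : Fin 0 → Fˣ) a.2).trans ⟨FA.Pfister.zeroIsometry _ _⟩
  add_zero := by
    rintro ⟨a⟩
    refine Quotient.sound (sim_of_equivalent ?_)
    exact (diag_append a.2 (Fin.elim0 : Fin 0 → Fˣ)).trans
      (Equivalent.trans ⟨IsometryEquiv.prodComm _ _⟩ ⟨FA.Pfister.zeroIsometry _ _⟩)
  neg_add_cancel := by
    rintro ⟨a⟩
    refine Quotient.sound ⟨0, a.1, ?_⟩
    have h1 : Equivalent (form (dAdd (dNeg a) a)) (hyp F a.1) :=
      (diag_append _ _).trans (Equivalent.trans ⟨IsometryEquiv.prodComm _ _⟩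
        (diag_neg_pair h2.out a.2))
    have hz : Equivalent (hyp F 0) (form (⟨0, Fin.elim0⟩ : Diag F)) :=
      (Equivalent.prod (diag_congr (v := (Fin.elim0 : Fin 0 → Fˣ)) (funext fun i => i.elim0))
        (diag_congr (funext fun i => i.elim0))).trans ⟨FA.Pfister.zeroIsometry _ _⟩
    exact (h1.prod hz).trans ⟨IsometryEquiv.prodComm _ _⟩
  nsmul := nsmulRec
  zsmul := zsmulRec

omit h2 in
theorem Stable.mk_of_equivalent {d e : Diag F} (h : Equivalent (form d) (form e)) :
    Stable.mk d = Stable.mk e :=
  Quotient.sound (sim_of_equivalent h)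

omit h2 in
theorem Stable.mk_append {n m : ℕ} (w : Fin n → Fˣ) (v : Fin m → Fˣ) :
    Stable.mk ⟨n + m, Fin.append w v⟩ = Stable.mk ⟨n, w⟩ + Stable.mk ⟨m, v⟩ :=
  rfl

omit h2 in
theorem Stable.mk_cons {n : ℕ} (a : Fˣ) (w : Fin n → Fˣ) :
    Stable.mk ⟨n + 1, Fin.cons a w⟩ = Stable.mk ⟨1, fun _ => a⟩ + Stable.mk ⟨n, w⟩ := by
  rw [← Stable.mk_append]
  refine Stable.mk_of_equivalent (Equivalent.trans ⟨FA.Pfister.consIsometry _⟩
    (Equivalent.trans ?_ (diag_append _ _).symm))
  refine Equivalent.prod ?_ (diag_congr (funext fun i => rfl))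
  exact ⟨{ toFun := fun x _ => x
           map_add' := fun _ _ => rfl
           map_smul' := fun _ _ => rfl
           invFun := fun x => x 0
           left_inv := fun _ => rfl
           right_inv := fun x => funext fun i => congrArg x (Fin.fin_one_eq_zero i).symm
           map_app' := fun x => by simp }⟩

/-- The stable class of a rank one form, as a map with the relations. -/
def stableMap : WittMap F (Stable F) where
  toFun a := Stable.mk ⟨1, fun _ => a⟩
  mul_sq a b := Stable.mk_of_equivalent (diag_mul_sq (fun _ => a) fun _ => b)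
  add_neg a := neg_add_cancel' a
  binary a b c h := by
    rw [← Stable.mk_append, ← Stable.mk_append]
    refine Stable.mk_of_equivalent ?_
    refine ((diag_congr ?_).trans (diag_binary a b c h Fin.elim0).symm).trans (diag_congr ?_) <;>
      funext i <;> fin_cases i <;> rfl
where
  neg_add_cancel' (a : Fˣ) : Stable.mk ⟨1, fun _ => a⟩ + Stable.mk ⟨1, fun _ => -a⟩ = 0 :=
    add_neg_cancel (Stable.mk ⟨1, fun _ => a⟩)

theorem lift_stableMap_cls : ∀ {n : ℕ} (w : Fin n → Fˣ),
    lift stableMap (cls w) = Stable.mk ⟨n, w⟩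
  | 0, w => by
    rw [cls, Finset.univ_eq_empty, Finset.sum_empty, map_zero]
    exact Stable.mk_of_equivalent (diag_congr (funext fun i => i.elim0))
  | n + 1, w => by
    conv_lhs => rw [← Fin.cons_self_tail w]
    rw [cls_cons, map_add, lift_stableMap_cls, lift_wittClass]
    exact (Stable.mk_cons (w 0) (Fin.tail w)).symm.trans
      (by rw [Fin.cons_self_tail])

omit h2 in
/-- **The presented group is the Witt group**: diagonal forms of the same rank are isometric if and
only if their classes agree. -/
theorem equivalent_iff_cls (h2 : (2 : F) ≠ 0) {n : ℕ} (w v : Fin n → Fˣ) :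
    Equivalent (diag w) (diag v) ↔ cls w = cls v := by
  refine ⟨cls_eq_of_equivalent h2, fun h => ?_⟩
  have := Fact.mk h2
  have h1 := congrArg (lift stableMap) h
  rw [lift_stableMap_cls, lift_stableMap_cls] at h1
  obtain ⟨k, l, ⟨g⟩⟩ := Quotient.exact h1
  obtain rfl : k = l := by
    have := g.toLinearEquiv.finrank_eq
    simp [Module.finrank_prod] at this
    omega
  have g' : Equivalent ((diag fun _ : Fin k => (1 : Fˣ)).prod
      ((diag fun _ : Fin k => (-1 : Fˣ)).prod (diag w)))
      ((diag fun _ : Fin k => (1 : Fˣ)).prod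
        ((diag fun _ : Fin k => (-1 : Fˣ)).prod (diag v))) :=
    (Equivalent.trans ⟨(FA.Pfister.assocIsometry _ _ _).symm⟩
      ⟨IsometryEquiv.prodComm _ _⟩).trans (Equivalent.trans ⟨g⟩
        (Equivalent.trans ⟨IsometryEquiv.prodComm _ _⟩
          ⟨FA.Pfister.assocIsometry _ _ _⟩))
  exact FA.Pfister.witt_cancel h2 (fun _ => Units.ne_zero _)
    (FA.Pfister.witt_cancel h2 (fun _ => Units.ne_zero _) g')

end Fermat.Agent.WittRat
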