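import Fermat.Agent.WittRat.Lifting
import Fermat.Agent.WittRat.Diagonal

/-!
# The Witt group of the rationals

`W ℚ ≅ ℤ ⊕ ⨁_p W(𝔽_p)` by the signature and the second residues, and so rational forms are
classified by rank, signature and second residues.
-/

set_option autoImplicit false

noncomputable section

namespace Fermat.Agent.WittRat

open Fermat.Agent.K2Rat
open scoped DirectSum

attribute [local instance] primesFact

/-- The invariants. -/
abbrev WittTarget : Type := ℤ × ⨁ q : Nat.Primes, W (ZMod (q : ℕ))

/-- All second residues of a rank one form. -/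
def residueSum (a : ℚˣ) : ⨁ q : Nat.Primes, W (ZMod (q : ℕ)) :=
  DirectSum.mk _ (badPrimes a) fun q => secondResidue (q.1 : ℕ) a

theorem residueSum_apply (a : ℚˣ) (q : Nat.Primes) : residueSum a q = secondResidue q a := by
  classical
  by_cases h : q ∈ badPrimes a
  · exact DirectSum.mk_apply_of_mem h
  · rw [secondResidue_eq_zero (val_eq_zero_of_notMem h)]
    exact DirectSum.mk_apply_of_notMem h

/-- All invariants together. -/
def allInvariants : WittMap ℚ WittTarget where
  toFun a := (signature a, residueSum a)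
  mul_sq a b := Prod.ext (signature.mul_sq a b) (DirectSum.ext fun q => by
    show residueSum _ q = residueSum _ q
    rw [residueSum_apply, residueSum_apply, (secondResidue (q : ℕ)).mul_sq])
  add_neg a := Prod.ext (signature.add_neg a) (DirectSum.ext fun q => by
    show (residueSum a + residueSum (-a)) q = 0
    rw [DirectSum.add_apply, residueSum_apply, residueSum_apply, (secondResidue (q : ℕ)).add_neg])
  binary a b c h := Prod.ext (signature.binary a b c h) (DirectSum.ext fun q => by
    show (residueSum a + residueSum b) q = (residueSum c + residueSum (a * b * c)) q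
    rw [DirectSum.add_apply, DirectSum.add_apply, residueSum_apply, residueSum_apply,
      residueSum_apply, residueSum_apply, (secondResidue (q : ℕ)).binary a b c h])

theorem lift_allInvariants_fst (z : W ℚ) : (lift allInvariants z).1 = lift signature z :=
  DFunLike.congr_fun (hom_ext (f := (AddMonoidHom.fst _ _).comp (lift allInvariants))
    (g := lift signature) fun a => by
      rw [AddMonoidHom.comp_apply, lift_wittClass, lift_wittClass]
      rfl) z

theorem lift_allInvariants_snd (q : Nat.Primes) (z : W ℚ) :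
    (lift allInvariants z).2 q = lift (secondResidue q) z :=
  DFunLike.congr_fun (hom_ext
    (f := (DFinsupp.evalAddMonoidHom q).comp ((AddMonoidHom.snd _ _).comp (lift allInvariants)))
    (g := lift (secondResidue (q : ℕ))) fun a => by
      rw [AddMonoidHom.comp_apply, AddMonoidHom.comp_apply, lift_wittClass, lift_wittClass]
      exact residueSum_apply a q) z

theorem signature_one : signature (1 : ℚˣ) = 1 := by
  show (if (0 : ℚ) < ((1 : ℚˣ) : ℚ) then (1 : ℤ) else -1) = 1
  rw [if_pos]
  norm_num

theorem eq_zero_of_mem_two_signature {z : W ℚ} (hz : z ∈ layer 2) (h : lift signature z = 0) :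
    z = 0 := by
  have hle : layer 2 ≤ AddSubgroup.zmultiples (wittClass ℚ 1) := by
    refine (AddSubgroup.closure_le _).2 ?_
    rintro _ ⟨a, ha, rfl⟩
    rcases eq_one_or_neg_one ha with rfl | rfl
    · exact AddSubgroup.mem_zmultiples _
    · rw [SetLike.mem_coe, (wittClass ℚ).apply_neg]
      exact neg_mem (AddSubgroup.mem_zmultiples _)
  obtain ⟨k, rfl⟩ := AddSubgroup.mem_zmultiples_iff.1 (hle hz)
  rw [map_zsmul, lift_wittClass, signature_one, smul_eq_mul,
    mul_one] at h
  rw [h, zero_smul]

theorem layer_succ_le {n : ℕ} (hn : ¬ n.Prime) : layer (n + 1) ≤ layer n :=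
  AddSubgroup.closure_mono (Set.image_mono fun a ha q hq => by
    rcases eq_or_lt_of_le hq with rfl | hlt
    · exact absurd q.2 hn
    · exact ha q hlt)

theorem lift_allInvariants_injective : Function.Injective (lift allInvariants) := by
  refine (injective_iff_map_eq_zero _).2 fun z hz => ?_
  obtain ⟨n, hn⟩ := exists_mem_layer z
  have hsig : lift signature z = 0 := by
    rw [← lift_allInvariants_fst, hz]
    rfl
  induction n with
  | zero => exact eq_zero_of_mem_two_signature (layer_mono (Nat.zero_le 2) hn) hsig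
  | succ n ih =>
    by_cases hp : n.Prime
    · have := Fact.mk hp
      refine ih ((QuotientAddGroup.eq_zero_iff z).1 ?_)
      rw [mk_eq_topMap hn, ← lift_allInvariants_snd ⟨n, hp⟩, hz]
      exact map_zero _
    · exact ih (layer_succ_le hp hn)

theorem lift_allInvariants_surjective : Function.Surjective (lift allInvariants) := by
  have hsum : ∀ n : ℕ, ∀ d : ⨁ q : Nat.Primes, W (ZMod (q : ℕ)),
      (∀ q : Nat.Primes, n ≤ q → d q = 0) → ∃ z, (lift allInvariants z).2 = d := by
    intro n
    induction n with
    | zero =>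
      intro d hd
      exact ⟨0, by rw [map_zero, show d = 0 from DirectSum.ext fun q => hd q (Nat.zero_le _)]; rfl⟩
    | succ n ih =>
      intro d hd
      by_cases hp : n.Prime
      swap
      · exact ih d fun q hq => hd q (Nat.lt_of_le_of_ne hq fun e => hp (e ▸ q.2))
      have := Fact.mk hp
      obtain ⟨z, hz, hres⟩ := exists_secondResidue_eq (p := n) (d ⟨n, hp⟩)
      obtain ⟨y, hy⟩ := ih (d - (lift allInvariants z).2) fun q hq => by
        rw [DirectSum.sub_apply, lift_allInvariants_snd, sub_eq_zero]
        rcases eq_or_lt_of_le hq with e | hlt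
        · obtain rfl : q = ⟨n, hp⟩ := Subtype.ext e.symm
          exact hres.symm
        · rw [hd q hlt, secondResidue_eq_zero_of_mem hlt hz]
      exact ⟨y + z, by rw [map_add, Prod.snd_add, hy, sub_add_cancel]⟩
  rintro ⟨k, d⟩
  obtain ⟨n, hn⟩ : ∃ n : ℕ, ∀ q : Nat.Primes, n ≤ (q : ℕ) → d q = 0 := by
    classical
    refine ⟨(DFinsupp.support d).sup (fun q : Nat.Primes => (q : ℕ)) + 1, fun q hq => ?_⟩
    by_contra h
    have : (q : ℕ) ≤ (DFinsupp.support d).sup (fun q : Nat.Primes => (q : ℕ)) :=
      Finset.le_sup (f := fun q : Nat.Primes => (q : ℕ)) (DFinsupp.mem_support_iff.2 h)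
    omega
  obtain ⟨z, hz⟩ := hsum n d hn
  have h1 : lift allInvariants (wittClass ℚ 1) = (1, 0) := by
    rw [lift_wittClass]
    refine Prod.ext signature_one (DirectSum.ext fun q => ?_)
    show residueSum 1 q = 0
    rw [residueSum_apply, secondResidue_eq_zero (val_one (q : ℕ))]
  refine ⟨z + (k - (lift allInvariants z).1) • wittClass ℚ 1, ?_⟩
  rw [map_add, map_zsmul, h1]
  refine Prod.ext ?_ ?_
  · simp
  · simp [hz]

/-- **`W ℚ ≅ ℤ ⊕ ⨁_p W(𝔽_p)`.** -/
def wittRatEquiv : W ℚ ≃+ WittTarget :=
  AddEquiv.ofBijective (lift allInvariants)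
    ⟨lift_allInvariants_injective, lift_allInvariants_surjective⟩

theorem wittRatEquiv_apply (a : ℚˣ) :
    wittRatEquiv (wittClass ℚ a) = (signature a, residueSum a) :=
  lift_wittClass allInvariants a

/-- **The classification of rational quadratic forms.** -/
theorem equivalent_iff_invariants {n : ℕ} (w v : Fin n → ℚˣ) :
    QuadraticMap.Equivalent (diag w) (diag v) ↔
      (∑ i, signature (w i) = ∑ i, signature (v i)) ∧
        ∀ q : Nat.Primes, ∑ i, secondResidue q (w i) = ∑ i, secondResidue q (v i) := by
  rw [equivalent_iff_cls two_ne_zero]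
  have hfst : ∀ u : Fin n → ℚˣ, (lift allInvariants (cls u)).1 = ∑ i, signature (u i) := fun u => by
    rw [lift_allInvariants_fst, cls, map_sum]
    simp only [lift_wittClass]
  have hsnd : ∀ (u : Fin n → ℚˣ) (q : Nat.Primes),
      (lift allInvariants (cls u)).2 q = ∑ i, secondResidue q (u i) := fun u q => by
    rw [lift_allInvariants_snd, cls, map_sum]
    simp only [lift_wittClass]
  constructor
  · intro h
    exact ⟨by rw [← hfst, ← hfst, h], fun q => by rw [← hsnd, ← hsnd, h]⟩
  · rintro ⟨h1, h2⟩
    refine lift_allInvariants_injective (Prod.ext ?_ (DirectSum.ext fun q => ?_))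
    · rw [hfst, hfst, h1]
    · rw [hsnd, hsnd, h2 q]

/-- `W 𝔽₂ ≅ ℤ/2`, the parity of the rank. -/
theorem nonempty_equiv_zmod_two : Nonempty (W (ZMod 2) ≃+ ZMod 2) := by
  have hu : ∀ a : (ZMod 2)ˣ, a = 1 := by decide
  let par : WittMap (ZMod 2) (ZMod 2) :=
    { toFun := fun _ => 1
      mul_sq := fun _ _ => rfl
      add_neg := fun _ => rfl
      binary := fun _ _ _ _ => rfl }
  have h2 : zmultiplesHom (W (ZMod 2)) (wittClass (ZMod 2) 1) ((2 : ℕ) : ℤ) = 0 := by
    rw [zmultiplesHom_apply, natCast_zsmul, two_nsmul]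
    conv_lhs => arg 2; rw [← hu (-1)]
    exact (wittClass (ZMod 2)).add_neg 1
  let g : ZMod 2 →+ W (ZMod 2) := ZMod.lift 2 ⟨zmultiplesHom _ (wittClass (ZMod 2) 1), h2⟩
  have hg : g 1 = wittClass (ZMod 2) 1 := by
    rw [← Int.cast_one, ZMod.lift_coe]
    exact one_zsmul _
  refine ⟨(lift par).toAddEquiv g (hom_ext fun a => ?_) (AddMonoidHom.ext fun z => ?_)⟩
  · rw [AddMonoidHom.comp_apply, lift_wittClass, hu a]
    exact hg
  · show lift par (g z) = z
    obtain ⟨k, rfl⟩ := ZMod.intCast_surjective z
    rw [show (k : ZMod 2) = k • (1 : ZMod 2) from (zsmul_one k).symm, map_zsmul, map_zsmul, hg,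
      lift_wittClass]

end Fermat.Agent.WittRat
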