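import Fermat.Agent.WittRat.Group
import Fermat.Agent.K2Rat.Reciprocity

/-!
# The invariants of rational forms

The signature and the second residue forms at the primes; at `2` the residue lies in `ℤ/2`.
-/

set_option autoImplicit false

noncomputable section

namespace Fermat.Agent.WittRat

open Fermat.Agent.K2Rat

variable (p : ℕ) [hp : Fact p.Prime]

theorem val_sq (b : ℚˣ) : val p (b ^ 2) = val p b + val p b := by rw [pow_two, val_mul]

theorem resHom_neg_one : resHom p (-1) = -1 := Units.ext (by
  have he : (unitPartHom p (-1) : ℤ_[p]) = -1 := Subtype.ext (by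
    push_cast
    rw [unitPartHom_of_val p (by rw [val_neg, val_one])]
    push_cast
    rfl)
  rw [val_resHom, he, map_neg, map_one, Units.val_neg, Units.val_one])

theorem resHom_neg (a : ℚˣ) : resHom p (-a) = -resHom p a := by
  rw [← neg_one_mul, map_mul, resHom_neg_one, neg_one_mul]

theorem resHom_self : resHom p (natUnit p) = 1 := Units.ext (by
  have he : (unitPartHom p (natUnit p) : ℤ_[p]) = 1 := Subtype.ext (by
    rw [coe_unitPartHom, val_natUnit_self, coe_natUnit hp.out.ne_zero, Rat.cast_natCast,
      zpow_neg_one, PadicInt.coe_one]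
    exact mul_inv_cancel₀ (Nat.cast_ne_zero.2 hp.out.ne_zero))
  rw [val_resHom, he, map_one, Units.val_one])

/-- The second residue of a rank one form. -/
def resFun (a : ℚˣ) : W (ZMod p) :=
  if Odd (val p a) then wittClass (ZMod p) (resHom p a) else 0

theorem resFun_mul_sq (a b : ℚˣ) : resFun p (a * b ^ 2) = resFun p a := by
  simp only [resFun, val_mul, val_sq, map_mul, map_pow, (wittClass (ZMod p)).mul_sq]
  simp [Int.odd_add, ← two_mul]

theorem resFun_add_neg (a : ℚˣ) : resFun p a + resFun p (-a) = 0 := by
  simp only [resFun, val_neg, resHom_neg]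
  split_ifs
  · exact (wittClass (ZMod p)).add_neg _
  · exact add_zero 0

theorem resFun_congr {a b : ℚˣ} (hv : Even (val p a - val p b)) (hr : resHom p a = resHom p b) :
    resFun p a = resFun p b := by
  rw [Int.even_sub] at hv
  rw [resFun, resFun, hr]
  simp only [← Int.not_even_iff_odd, hv]

/-- The binary relation, for `α + β = 1`. -/
theorem resFun_binary_one (c α β : ℚˣ) (h : (α : ℚ) + β = 1) :
    resFun p (c * α) + resFun p (c * β) = resFun p c + resFun p (c * α * β) := by
  have hpz : PadicInt.toZMod (p : ℤ_[p]) = (0 : ZMod p) := by rw [map_natCast, ZMod.natCast_self]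
  rcases cases_of_add_eq_one (p := p) h with ⟨m, ha, hb, he⟩ | ⟨m, hb, ha, he⟩ | ⟨ha, hb⟩ |
    ⟨m, ha, hb, he⟩
  · have h1 : resHom p β = 1 := Units.ext (by
      have := congrArg PadicInt.toZMod he
      rw [map_add, map_mul, map_pow, hpz, zero_pow m.succ_ne_zero, zero_mul, add_zero, map_one]
        at this
      exact this)
    rw [resFun_congr p (a := c * β) (b := c) (by simp [val_mul, hb]) (by simp [h1]),
      resFun_congr p (a := c * α * β) (b := c * α) (by simp [val_mul, hb]) (by simp [h1]), add_comm]
  · have h1 : resHom p α = 1 := Units.ext (by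
      have := congrArg PadicInt.toZMod he
      rw [map_add, map_mul, map_pow, hpz, zero_pow m.succ_ne_zero, zero_mul, add_zero, map_one]
        at this
      exact this)
    rw [resFun_congr p (a := c * α) (b := c) (by simp [val_mul, ha]) (by simp [h1]),
      resFun_congr p (a := c * α * β) (b := c * β) (by simp [val_mul, ha]) (by simp [h1])]
  · simp only [resFun, val_mul, ha, hb, add_zero, map_mul]
    split_ifs
    swap
    · rfl
    have he : (unitPartHom p α : ℤ_[p]) + unitPartHom p β = 1 := Subtype.ext (by
      push_cast
      rw [unitPartHom_of_val p ha, unitPartHom_of_val p hb]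
      exact_mod_cast congrArg (Rat.cast : ℚ → ℚ_[p]) h)
    have he' := congrArg PadicInt.toZMod he
    rw [map_add, map_one, ← val_resHom, ← val_resHom] at he'
    rw [(wittClass (ZMod p)).binary _ _ (resHom p c) (by
      push_cast
      rw [← mul_add, he', mul_one])]
    refine congrArg _ ((wittClass (ZMod p)).eq_of_div_sq (c := resHom p c) ?_)
    rw [pow_two]
    ac_rfl
  · have h1 : resHom p β = -resHom p α := Units.ext (by
      have := congrArg PadicInt.toZMod he
      rw [map_add, map_pow, hpz, zero_pow m.succ_ne_zero] at this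
      rw [Units.val_neg]
      exact eq_neg_of_add_eq_zero_right this)
    rw [resFun_congr p (a := c * β) (b := -(c * α)) (by simp [val_mul, val_neg, ha, hb])
      (by simp [resHom_neg, h1]), resFun_add_neg,
      resFun_congr p (a := c * α * β) (b := -c * α ^ 2)
      (by simp [val_mul, val_sq, val_neg, ha, hb, add_assoc])
      (by simp [resHom_neg, h1, pow_two, mul_assoc]), resFun_mul_sq, resFun_add_neg]

/-- **The second residue form at `p`.** -/
def secondResidue : WittMap ℚ (W (ZMod p)) where
  toFun := resFun p
  mul_sq := resFun_mul_sq p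
  add_neg := resFun_add_neg p
  binary a b c h := by
    have h1 := resFun_binary_one p c (a * c⁻¹) (b * c⁻¹) (by
      rw [Units.val_mul, Units.val_mul, ← add_mul, h, Units.mul_inv])
    rw [mul_comm c (a * c⁻¹), inv_mul_cancel_right, mul_comm c (b * c⁻¹),
      inv_mul_cancel_right] at h1
    rw [h1]
    refine congrArg _ ?_
    rw [← resFun_mul_sq p (a * (b * c⁻¹)) c]
    refine congrArg _ ?_
    group

variable {p}

theorem secondResidue_natUnit_mul {a : ℚˣ} (ha : val p a = 0) :
    secondResidue p (natUnit p * a) = wittClass (ZMod p) (resHom p a) := by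
  show resFun p _ = _
  rw [resFun, if_pos (by rw [val_mul, val_natUnit_self, ha]; decide), map_mul, resHom_self,
    one_mul]

theorem secondResidue_eq_zero {a : ℚˣ} (ha : val p a = 0) : secondResidue p a = 0 := by
  show resFun p _ = _
  rw [resFun, if_neg (by rw [ha]; decide)]

/-- The signature of a rank one form. -/
def signature : WittMap ℚ ℤ where
  toFun a := if (0 : ℚ) < a then 1 else -1
  mul_sq a b := by
    have : (0 : ℚ) < (b : ℚ) ^ 2 := sq_pos_of_ne_zero b.ne_zero
    simp [Units.val_mul, mul_pos_iff_of_pos_right this]
  add_neg a := by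
    rcases a.ne_zero.lt_or_gt with h | h <;> simp [h, h.not_gt]
  binary a b c h := by
    rcases a.ne_zero.lt_or_gt with ha | ha <;> rcases b.ne_zero.lt_or_gt with hb | hb <;>
      rcases c.ne_zero.lt_or_gt with hc | hc
    all_goals first
      | (exfalso; linarith)
      | simp [mul_pos_iff, mul_neg_iff, ha, hb, hc, ha.not_gt, hb.not_gt, hc.not_gt]

end Fermat.Agent.WittRat
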