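import Fermat.Agent.WittRat.Residue

/-!
# Forms modulo those with smaller primes

Modulo the classes of the units with prime factors below `p` the class `⟨p a⟩` depends only on the
residue of `a`, and this inverts the second residue at `p`.
-/

set_option autoImplicit false

noncomputable section

namespace Fermat.Agent.WittRat

open Fermat.Agent.K2Rat

attribute [local instance] primesFact

/-- The classes of the units with all prime factors below `n`. -/
def layer (n : ℕ) : AddSubgroup (W ℚ) := AddSubgroup.closure (wittClass ℚ '' (smooth n : Set ℚˣ))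

theorem wittClass_mem_layer {n : ℕ} {a : ℚˣ} (h : a ∈ smooth n) : wittClass ℚ a ∈ layer n :=
  AddSubgroup.subset_closure ⟨a, h, rfl⟩

theorem layer_mono {m n : ℕ} (h : m ≤ n) : layer m ≤ layer n :=
  AddSubgroup.closure_mono (Set.image_mono (smooth_mono h))

theorem exists_mem_layer (z : W ℚ) : ∃ n, z ∈ layer n := by
  have h : z ∈ AddSubgroup.closure (Set.range (wittClass ℚ)) := by
    rw [closure_range_wittClass]
    exact AddSubgroup.mem_top z
  induction h using AddSubgroup.closure_induction with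
  | mem x hx =>
    obtain ⟨a, rfl⟩ := hx
    obtain ⟨n, hn⟩ := exists_mem_smooth a
    exact ⟨n, wittClass_mem_layer hn⟩
  | zero => exact ⟨0, zero_mem _⟩
  | add x y _ _ hx hy =>
    obtain ⟨m, hm⟩ := hx
    obtain ⟨n, hn⟩ := hy
    exact ⟨max m n, add_mem (layer_mono (le_max_left m n) hm) (layer_mono (le_max_right m n) hn)⟩
  | neg x _ hx =>
    obtain ⟨n, hn⟩ := hx
    exact ⟨n, neg_mem hn⟩

theorem secondResidue_eq_zero_of_mem {n : ℕ} {q : Nat.Primes} (hq : n ≤ q) {z : W ℚ}
    (hz : z ∈ layer n) : lift (secondResidue q) z = 0 := by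
  refine (AddSubgroup.closure_le (lift (secondResidue q)).ker).2 ?_ hz
  rintro _ ⟨a, ha, rfl⟩
  exact (lift_wittClass _ a).trans (secondResidue_eq_zero (ha q hq))

variable {p : ℕ} [hp : Fact p.Prime]

/-- The class of `p a` modulo the smaller primes. -/
def top (p : ℕ) (a : ℚˣ) : W ℚ ⧸ layer p :=
  QuotientAddGroup.mk (wittClass ℚ (natUnit p * a))

omit hp in
theorem top_mul_sq (a b : ℚˣ) : top p (a * b ^ 2) = top p a := by
  rw [top, top, ← mul_assoc, (wittClass ℚ).mul_sq]

omit hp in
theorem top_neg (a : ℚˣ) : top p (-a) = -top p a := by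
  rw [top, top, ← QuotientAddGroup.mk_neg, mul_neg, (wittClass ℚ).apply_neg]

omit hp in
theorem mk_eq_zero {a : ℚˣ} (h : a ∈ smooth p) :
    (QuotientAddGroup.mk (wittClass ℚ a) : W ℚ ⧸ layer p) = 0 :=
  (QuotientAddGroup.eq_zero_iff _).2 (wittClass_mem_layer h)

omit hp in
theorem top_binary {a b c : ℚˣ} (h : (a : ℚ) + b = c) :
    top p a + top p b = top p c + top p (a * b * c) := by
  have := congrArg (fun z => (QuotientAddGroup.mk (scale (natUnit p) z) : W ℚ ⧸ layer p))
    ((wittClass ℚ).binary a b c h)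
  simpa [top, QuotientAddGroup.mk_add] using this

omit hp in
/-- **Milnor's key relation.** -/
theorem top_key {r q : ℕ} (hr0 : r ≠ 0) (hq0 : q ≠ 0) (hr : r < p) (hq : q < p) (hm : r * q % p ≠ 0)
    {w : ℚˣ} (hw : w ∈ smooth p) :
    top p (natUnit (r * q) * w) = top p (natUnit (r * q % p) * w) := by
  set z := r * q % p
  set k := r * q / p with hk
  have hzk : p * k + z = r * q := Nat.div_add_mod _ _
  rcases Nat.eq_zero_or_pos k with h0 | h0
  · rw [h0, mul_zero, zero_add] at hzk
    rw [← hzk]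
  have hkp : k < p := by
    rw [hk, Nat.div_lt_iff_lt_mul (by omega)]
    exact Nat.mul_lt_mul'' hr hq
  have hzp : z < p := Nat.mod_lt _ (by omega)
  have hp0 : p ≠ 0 := by omega
  set Z := natUnit z
  set K := natUnit k
  set X := natUnit (r * q)
  have hZ : Z ∈ smooth p := natUnit_mem_of_lt hm hzp
  have hK : K ∈ smooth p := natUnit_mem_of_lt h0.ne' hkp
  have hX : X ∈ smooth p := by
    show natUnit (r * q) ∈ _
    rw [natUnit_mul hr0 hq0]
    exact mul_mem (natUnit_mem_of_lt hr0 hr) (natUnit_mem_of_lt hq0 hq)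
  have hb := (wittClass ℚ).binary Z (natUnit p * K) X (by
    rw [Units.val_mul, coe_natUnit hm, coe_natUnit hp0, coe_natUnit h0.ne',
      coe_natUnit (mul_ne_zero hr0 hq0), ← hzk]
    push_cast
    ring)
  have h1 := congrArg (fun y => (QuotientAddGroup.mk (scale (K * Z * w) y) : W ℚ ⧸ layer p)) hb
  simp only [map_add, scale_wittClass, QuotientAddGroup.mk_add] at h1
  rw [mk_eq_zero (mul_mem (mul_mem (mul_mem hK hZ) hw) hZ),
    mk_eq_zero (mul_mem (mul_mem (mul_mem hK hZ) hw) hX)] at h1
  replace h1 := add_left_cancel h1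
  rw [show K * Z * w * (natUnit p * K) = natUnit p * (Z * w * K ^ 2) by rw [pow_two]; ac_rfl,
    show K * Z * w * (Z * (natUnit p * K) * X) = natUnit p * (X * w * (K * Z) ^ 2) by
      rw [pow_two]; ac_rfl] at h1
  rw [← top_mul_sq (Z * w) K, ← top_mul_sq (X * w) (K * Z)]
  exact h1.symm

theorem top_mod : ∀ x : ℕ, x ≠ 0 → (∀ q : ℕ, q.Prime → q ∣ x → q < p) → ∀ w ∈ smooth p,
    top p (natUnit x * w) = top p (natUnit (x % p) * w) := by
  intro x
  induction x using Nat.strong_induction_on with
  | _ x ih =>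
    intro hx hs w hw
    rcases lt_or_ge x p with h | h
    · rw [Nat.mod_eq_of_lt h]
    obtain ⟨q, hq, y, rfl⟩ := Nat.exists_prime_and_dvd (n := x) (by have := hp.out.two_le; omega)
    have hy : y ≠ 0 := right_ne_zero_of_mul hx
    have hqp : q < p := hs q hq (dvd_mul_right q y)
    have hys : ∀ r : ℕ, r.Prime → r ∣ y → r < p :=
      fun r hr hd => hs r hr (dvd_mul_of_dvd_right hd q)
    have hyp : y % p ≠ 0 := fun e =>
      absurd (hys p hp.out (Nat.dvd_of_mod_eq_zero e)) (lt_irrefl p)
    have hlt : y < q * y := lt_mul_left (Nat.pos_of_ne_zero hy) hq.one_lt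
    have hne : y % p * q % p ≠ 0 := fun e => by
      rcases (hp.out.dvd_mul.1 (Nat.dvd_of_mod_eq_zero e)) with hd | hd
      · exact hyp (by rw [← Nat.mod_mod, Nat.mod_eq_zero_of_dvd hd])
      · exact absurd (Nat.le_of_dvd hq.pos hd) (not_le.2 hqp)
    rw [natUnit_mul hq.ne_zero hy, mul_comm (natUnit q), mul_assoc,
      ih y hlt hy hys _ (mul_mem (natUnit_mem_of_lt hq.ne_zero hqp) hw), ← mul_assoc,
      ← natUnit_mul hyp hq.ne_zero,
      top_key hyp hq.ne_zero (Nat.mod_lt _ hp.out.pos) hqp hne hw, Nat.mod_mul_mod, mul_comm y q]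

theorem val_cast_ne_zero (u : (ZMod p)ˣ) : (u : ZMod p).val ≠ 0 := fun e =>
  u.ne_zero ((ZMod.val_eq_zero _).1 e)

/-- The representative below `p` of a residue. -/
def rep (u : (ZMod p)ˣ) : ℚˣ := natUnit (u : ZMod p).val

theorem rep_mem (u : (ZMod p)ˣ) : rep u ∈ smooth p :=
  natUnit_mem_of_lt (val_cast_ne_zero u) (ZMod.val_lt _)

theorem resHom_rep (u : (ZMod p)ˣ) : resHom p (rep u) = u := Units.ext (by
  rw [rep, resHom_natUnit fun hd => absurd (Nat.le_of_dvd (Nat.pos_of_ne_zero (val_cast_ne_zero u))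
    hd) (not_le.2 (ZMod.val_lt _)), ZMod.natCast_zmod_val])

theorem top_natUnit {x : ℕ} (hx : x ≠ 0) (hs : ∀ q : ℕ, q.Prime → q ∣ x → q < p) :
    top p (natUnit x) = top p (rep (resHom p (natUnit x))) := by
  have hd : ¬ p ∣ x := fun hd => absurd (hs p hp.out hd) (lt_irrefl p)
  have := top_mod x hx hs 1 (one_mem _)
  rw [mul_one, mul_one] at this
  rw [this, rep, resHom_natUnit hd, ZMod.val_natCast]

theorem val_rep_neg (u : (ZMod p)ˣ) : ((-u : (ZMod p)ˣ) : ZMod p).val = p - (u : ZMod p).val := by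
  rw [Units.val_neg, ZMod.neg_val, if_neg u.ne_zero]

theorem top_rep_neg (u : (ZMod p)ˣ) : top p (rep (-u)) = -top p (rep u) := by
  set x := (u : ZMod p).val
  have hx : x ≠ 0 := val_cast_ne_zero u
  have hxp : x < p := ZMod.val_lt _
  have hy : p - x ≠ 0 := by omega
  refine eq_neg_of_add_eq_zero_right ?_
  have hb := (wittClass ℚ).binary (natUnit p * natUnit x) (natUnit p * natUnit (p - x))
    (natUnit p ^ 2) (by
      simp only [Units.val_mul, Units.val_pow_eq_pow_val, coe_natUnit hp.out.ne_zero,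
        coe_natUnit hx, coe_natUnit hy, Nat.cast_sub hxp.le]
      ring)
  rw [rep, rep, val_rep_neg, top, top, ← QuotientAddGroup.mk_add, hb, QuotientAddGroup.mk_add,
    (wittClass ℚ).sq, (wittClass ℚ).mul_sq,
    show natUnit p * natUnit x * (natUnit p * natUnit (p - x)) =
      natUnit x * natUnit (p - x) * natUnit p ^ 2 by rw [pow_two]; ac_rfl,
    (wittClass ℚ).mul_sq, mk_eq_zero (one_mem _),
    mk_eq_zero (mul_mem (natUnit_mem_of_lt hx hxp) (natUnit_mem_of_lt hy (by omega)))]
  exact add_zero (0 : W ℚ ⧸ layer p)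

theorem top_rep_mul_sq (u v : (ZMod p)ˣ) : top p (rep (u * v ^ 2)) = top p (rep u) := by
  set x := (u : ZMod p).val
  set y := (v : ZMod p).val
  have hx : x ≠ 0 := val_cast_ne_zero u
  have hy : y ≠ 0 := val_cast_ne_zero v
  have he : natUnit (x * (y * y)) = rep u * rep v ^ 2 := by
    rw [natUnit_mul hx (mul_ne_zero hy hy), natUnit_mul hy hy, pow_two]
    rfl
  have hs : ∀ q : ℕ, q.Prime → q ∣ x * (y * y) → q < p := fun q hq hd => by
    have hlt : ∀ z : ZMod p, z ≠ 0 → q ∣ z.val → q < p := fun z hz hd =>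
      lt_of_le_of_lt (Nat.le_of_dvd (Nat.pos_of_ne_zero fun e => hz ((ZMod.val_eq_zero z).1 e)) hd)
        (ZMod.val_lt z)
    rcases hq.dvd_mul.1 hd with hd | hd
    · exact hlt _ u.ne_zero hd
    · exact hlt _ v.ne_zero ((hq.dvd_mul.1 hd).elim id id)
  have h := top_natUnit (mul_ne_zero hx (mul_ne_zero hy hy)) hs
  rw [he, top_mul_sq, map_mul, map_pow, resHom_rep, resHom_rep] at h
  exact h.symm

omit hp in
theorem not_dvd_of_smooth {a : ℚˣ} (ha : a ∈ smooth p) {q : ℕ} (hq : q.Prime) (hle : p ≤ q) :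
    ¬ q ∣ (a : ℚ).num.natAbs ∧ ¬ q ∣ (a : ℚ).den := by
  have := Fact.mk hq
  have h0 : padicValRat q (a : ℚ) = 0 := ha ⟨q, hq⟩ hle
  rw [padicValRat_def, padicValInt] at h0
  constructor <;> intro hd
  · have h1 : padicValNat q (a : ℚ).den = 0 := padicValNat.eq_zero_of_not_dvd fun hd' =>
      hq.ne_one (Nat.eq_one_of_dvd_coprimes (a : ℚ).reduced hd hd')
    have := one_le_padicValNat_of_dvd (Int.natAbs_ne_zero.2 (Rat.num_ne_zero.2 a.ne_zero)) hd
    rw [h1] at h0
    omega
  · have h1 : padicValNat q (a : ℚ).num.natAbs = 0 := padicValNat.eq_zero_of_not_dvd fun hd' =>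
      hq.ne_one (Nat.eq_one_of_dvd_coprimes (a : ℚ).reduced hd' hd)
    have := one_le_padicValNat_of_dvd (a : ℚ).den_ne_zero hd
    rw [h1] at h0
    omega

/-- **Only the residue matters.** -/
theorem top_eq_rep {a : ℚˣ} (ha : a ∈ smooth p) : top p a = top p (rep (resHom p a)) := by
  set N := (a : ℚ).num.natAbs
  set D := (a : ℚ).den
  have hN : N ≠ 0 := Int.natAbs_ne_zero.2 (Rat.num_ne_zero.2 a.ne_zero)
  have hD : D ≠ 0 := (a : ℚ).den_ne_zero
  have hs : ∀ q : ℕ, q.Prime → q ∣ N * D → q < p := fun q hq hd => by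
    by_contra h
    have := not_dvd_of_smooth ha hq (not_lt.1 h)
    rcases hq.dvd_mul.1 hd with hd | hd
    exacts [this.1 hd, this.2 hd]
  have h := top_natUnit (mul_ne_zero hN hD) hs
  have hden : ((a : ℚ) * (D : ℚ) ^ 2) = (a : ℚ).num * D := by
    rw [pow_two, ← mul_assoc, Rat.mul_den_eq_num]
  rcases a.ne_zero.lt_or_gt with hneg | hpos
  · have he : a * natUnit D ^ 2 = -natUnit (N * D) := Units.ext (by
      rw [Units.val_neg, Units.val_mul, Units.val_pow_eq_pow_val, coe_natUnit hD,
        coe_natUnit (mul_ne_zero hN hD), hden, Nat.cast_mul, Nat.cast_natAbs,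
        abs_of_neg (Rat.num_neg.2 hneg), Int.cast_neg]
      ring)
    rw [← top_mul_sq a (natUnit D), he, top_neg, h, ← top_rep_neg, ← resHom_neg, ← he, map_mul,
      map_pow, top_rep_mul_sq]
  · have he : a * natUnit D ^ 2 = natUnit (N * D) := Units.ext (by
      rw [Units.val_mul, Units.val_pow_eq_pow_val, coe_natUnit hD,
        coe_natUnit (mul_ne_zero hN hD), hden, Nat.cast_mul, Nat.cast_natAbs,
        abs_of_pos (Rat.num_pos.2 hpos)])
    rw [← top_mul_sq a (natUnit D), he, h, ← he, map_mul, map_pow, top_rep_mul_sq]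

/-- The inverse of the second residue modulo the smaller primes. -/
def topMap (p : ℕ) [Fact p.Prime] : WittMap (ZMod p) (W ℚ ⧸ layer p) where
  toFun u := top p (rep u)
  mul_sq := top_rep_mul_sq
  add_neg u := by rw [top_rep_neg, add_neg_cancel]
  binary u v w h := by
    have hp' : p.Prime := Fact.out
    set x := (u : ZMod p).val
    set y := (v : ZMod p).val
    obtain ⟨b, hbm, hbr, c, hcm, habc⟩ : ∃ b : ℚˣ, b ∈ smooth p ∧ resHom p b = v ∧
        ∃ c : ℚˣ, c ∈ smooth p ∧ (rep u : ℚ) + b = c := by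
      have hx : x ≠ 0 := val_cast_ne_zero u
      have hy : y ≠ 0 := val_cast_ne_zero v
      have hxp : x < p := ZMod.val_lt _
      have hyp : y < p := ZMod.val_lt _
      rcases lt_or_ge (x + y) p with hlt | hge
      · refine ⟨rep v, rep_mem v, resHom_rep v, natUnit (x + y),
          natUnit_mem_of_lt (by omega) hlt, ?_⟩
        rw [rep, rep, coe_natUnit hx, coe_natUnit hy, coe_natUnit (by omega), Nat.cast_add]
      · have hne : x + y ≠ p := fun e => w.ne_zero (by
          rw [← h, ← ZMod.natCast_zmod_val (u : ZMod p), ← ZMod.natCast_zmod_val (v : ZMod p),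
            ← Nat.cast_add]
          show ((x + y : ℕ) : ZMod p) = 0
          rw [e, ZMod.natCast_self])
        refine ⟨-rep (-v), ?_, ?_, natUnit (x + y - p), natUnit_mem_of_lt (by omega) (by omega), ?_⟩
        · intro q hq
          rw [val_neg]
          exact rep_mem (-v) q hq
        · rw [resHom_neg, resHom_rep, neg_neg]
        · rw [Units.val_neg, rep, rep, val_rep_neg, coe_natUnit hx, coe_natUnit (by omega),
            coe_natUnit (by omega), Nat.cast_sub hyp.le, Nat.cast_sub hge, Nat.cast_add]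
          ring
    have hua : resHom p (rep u) = u := resHom_rep u
    have hrc : resHom p c = w := Units.ext (by
      have he : (unitPartHom p (rep u) : ℤ_[p]) + unitPartHom p b = unitPartHom p c :=
        Subtype.ext (by
          push_cast
          rw [unitPartHom_of_val p (rep_mem u ⟨p, hp'⟩ le_rfl),
            unitPartHom_of_val p (hbm ⟨p, hp'⟩ le_rfl), unitPartHom_of_val p (hcm ⟨p, hp'⟩ le_rfl)]
          exact_mod_cast congrArg (Rat.cast : ℚ → ℚ_[p]) habc)
      have h' := congrArg PadicInt.toZMod he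
      rw [map_add, ← val_resHom, ← val_resHom, ← val_resHom, hua, hbr, h] at h'
      exact h'.symm)
    have h1 := top_binary (p := p) habc
    rw [top_eq_rep hbm, top_eq_rep hcm,
      top_eq_rep (mul_mem (mul_mem (rep_mem u) hbm) hcm), map_mul, map_mul, hua, hbr, hrc] at h1
    exact h1

/-- **The second residue is inverse to `topMap`.** -/
theorem mk_eq_topMap {z : W ℚ} (hz : z ∈ layer (p + 1)) :
    (QuotientAddGroup.mk z : W ℚ ⧸ layer p) = lift (topMap p) (lift (secondResidue p) z) := by
  induction hz using AddSubgroup.closure_induction with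
  | zero => simp
  | add x y _ _ hx hy => rw [QuotientAddGroup.mk_add, map_add, map_add, hx, hy]
  | neg x _ hx => rw [QuotientAddGroup.mk_neg, map_neg, map_neg, hx]
  | mem x hx =>
    obtain ⟨a, ha, rfl⟩ := hx
    set P := natUnit p
    set a' := a * P ^ (-val p a)
    have ha' : a' ∈ smooth p := by
      intro q hq
      rw [val_mul, val_zpow]
      rcases eq_or_lt_of_le hq with e | hlt
      · obtain rfl : q = ⟨p, hp.out⟩ := Subtype.ext e.symm
        show val p a + -val p a * val p (natUnit p) = 0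
        rw [val_natUnit_self]
        ring
      · rw [ha q hlt, val_natUnit_prime (r := (q : ℕ)) (q := p) hlt.ne']
        ring
    have hv : val p a' = 0 := ha' ⟨p, hp.out⟩ le_rfl
    rw [lift_wittClass]
    rcases Int.even_or_odd' (val p a) with ⟨j, hj | hj⟩
    · have e : a = a' * (P ^ j) ^ 2 := by
        rw [mul_assoc, ← zpow_natCast (P ^ j), ← zpow_mul, ← zpow_add, hj,
          show -(2 * j) + j * ((2 : ℕ) : ℤ) = 0 by push_cast; ring, zpow_zero, mul_one]
      rw [e, (wittClass ℚ).mul_sq, (secondResidue p).mul_sq, secondResidue_eq_zero hv, map_zero]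
      exact mk_eq_zero ha'
    · have e : a = (P * a') * (P ^ j) ^ 2 := by
        rw [mul_comm P a', mul_assoc, mul_assoc, ← zpow_natCast (P ^ j), ← zpow_mul,
          ← zpow_one_add, ← zpow_add, hj,
          show -(2 * j + 1) + (1 + j * ((2 : ℕ) : ℤ)) = 0 by push_cast; ring, zpow_zero, mul_one]
      rw [e, (wittClass ℚ).mul_sq, (secondResidue p).mul_sq, secondResidue_natUnit_mul hv,
        lift_wittClass]
      exact top_eq_rep ha'

/-- Every residue form occurs. -/
theorem exists_secondResidue_eq (y : W (ZMod p)) :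
    ∃ z ∈ layer (p + 1), lift (secondResidue p) z = y := by
  have h : y ∈ (layer (p + 1)).map (lift (secondResidue p)) := by
    refine (AddSubgroup.closure_le _).2 ?_
      ((closure_range_wittClass (F := ZMod p)).ge (AddSubgroup.mem_top y))
    rintro _ ⟨u, rfl⟩
    refine ⟨wittClass ℚ (natUnit p * rep u), wittClass_mem_layer (mul_mem
      (mem_smooth_succ_natUnit p hp.out) (smooth_mono (Nat.le_succ p) (rep_mem u))), ?_⟩
    rw [lift_wittClass, secondResidue_natUnit_mul (rep_mem u ⟨p, hp.out⟩ le_rfl), resHom_rep]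
  exact h

end Fermat.Agent.WittRat
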