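import Fermat.Agent.WittRat.Group

/-!
# The Witt group of a finite field of odd characteristic

It is `(ℤ/2)²` if `-1` is a square and `ℤ/4` otherwise.
-/

set_option autoImplicit false

noncomputable section

namespace Fermat.Agent.WittRat

variable {F : Type*} [Field F] [Finite F]

open scoped Classical in
/-- The quadratic character on units. -/
def qchar (a : Fˣ) : ℤ := if IsSquare (a : F) then 1 else -1

omit [Finite F] in
theorem qchar_cases (a : Fˣ) : qchar a = 1 ∨ qchar a = -1 := by
  unfold qchar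
  split_ifs <;> simp

theorem qchar_mul (a b : Fˣ) : qchar (a * b) = qchar a * qchar b := by
  classical
  have := Fintype.ofFinite F
  have h : ∀ c : Fˣ, qchar c = quadraticChar F (c : F) := fun c => by
    unfold qchar
    split_ifs with hc
    · exact ((quadraticChar_one_iff_isSquare c.ne_zero).2 hc).symm
    · exact (quadraticChar_neg_one_iff_not_isSquare.2 hc).symm
  rw [h, h, h, Units.val_mul, map_mul]

omit [Finite F] in
theorem qchar_one : qchar (1 : Fˣ) = 1 := by
  rw [qchar, if_pos (by simp)]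

theorem qchar_sq (a : Fˣ) : qchar (a ^ 2) = 1 := by
  rw [pow_two, qchar_mul]
  rcases qchar_cases a with h | h <;> rw [h] <;> rfl

theorem wittClass_eq_of_qchar {a b : Fˣ} (h : qchar a = qchar b) :
    wittClass F a = wittClass F b := by
  have h1 : qchar (a * b⁻¹) = 1 := by
    have h2 : qchar (a * b⁻¹) * qchar b = qchar a := by rw [← qchar_mul, inv_mul_cancel_right]
    rw [h] at h2
    rcases qchar_cases b with e | e <;> rw [e] at h2 <;> omega
  obtain ⟨c, hc⟩ : IsSquare ((a * b⁻¹ : Fˣ) : F) := by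
    by_contra hns
    rw [qchar, if_neg hns] at h1
    omega
  have hc0 : c ≠ 0 := fun e => (a * b⁻¹).ne_zero (by rw [hc, e, mul_zero])
  refine (wittClass F).eq_of_div_sq (c := Units.mk0 c hc0) ?_
  rw [show Units.mk0 c hc0 ^ 2 = a * b⁻¹ from Units.ext (by simp [hc, pow_two]), mul_comm a,
    mul_inv_cancel_left]

theorem exists_qchar_neg_one (h2 : (2 : F) ≠ 0) : ∃ s : Fˣ, qchar s = -1 := by
  obtain ⟨c, hc⟩ := FiniteField.exists_nonsquare (F := F) fun h => h2 (by
    have := ringChar.eq_iff.1 h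
    exact CharTwo.two_eq_zero)
  exact ⟨Units.mk0 c fun e => hc (e ▸ IsSquare.zero), if_neg hc⟩

/-- The residue of `qchar` in `ℤ/4`. -/
def mapFour (h : qchar (-1 : Fˣ) = -1) : WittMap F (ZMod 4) where
  toFun a := (qchar a : ZMod 4)
  mul_sq a b := by rw [qchar_mul, qchar_sq, mul_one]
  add_neg a := by
    rw [← neg_one_mul a, qchar_mul, h]
    push_cast
    ring
  binary a b c _ := by
    rw [qchar_mul, qchar_mul]
    rcases qchar_cases a with ha | ha <;> rcases qchar_cases b with hb | hb <;>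
      rcases qchar_cases c with hc | hc <;> rw [ha, hb, hc] <;> decide

/-- Dimension and discriminant. -/
def mapTwo (h : qchar (-1 : Fˣ) = 1) : WittMap F (ZMod 2 × ZMod 2) where
  toFun a := (1, if qchar a = 1 then 0 else 1)
  mul_sq a b := by rw [qchar_mul, qchar_sq, mul_one]
  add_neg a := by
    rw [← neg_one_mul a, qchar_mul, h, one_mul]
    split_ifs <;> rfl
  binary a b c _ := by
    rw [qchar_mul, qchar_mul]
    rcases qchar_cases a with ha | ha <;> rcases qchar_cases b with hb | hb <;>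
      rcases qchar_cases c with hc | hc <;> rw [ha, hb, hc] <;> decide

theorem two_nsmul_of_qchar (h : qchar (-1 : Fˣ) = 1) (a : Fˣ) :
    wittClass F a + wittClass F a = 0 := by
  have : wittClass F (-a) = wittClass F a :=
    wittClass_eq_of_qchar (by rw [← neg_one_mul a, qchar_mul, h, one_mul])
  conv_lhs => arg 2; rw [← this]
  exact (wittClass F).add_neg a

/-- **`W = (ℤ/2)²`** when `-1` is a square. -/
theorem nonempty_equiv_two (h2 : (2 : F) ≠ 0) (h : qchar (-1 : Fˣ) = 1) :
    Nonempty (W F ≃+ ZMod 2 × ZMod 2) := by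
  obtain ⟨s, hs⟩ := exists_qchar_neg_one h2
  have hx : ∀ x : W F, x ∈ ({wittClass F 1, wittClass F s - wittClass F 1} : Set (W F)) →
      zmultiplesHom (W F) x ((2 : ℕ) : ℤ) = 0 := fun x hx => by
    rw [zmultiplesHom_apply, natCast_zsmul, two_nsmul]
    rcases hx with rfl | rfl
    · exact two_nsmul_of_qchar h 1
    · rw [sub_add_sub_comm, two_nsmul_of_qchar h, two_nsmul_of_qchar h, sub_zero]
  let g : ZMod 2 × ZMod 2 →+ W F := AddMonoidHom.coprod
    (ZMod.lift 2 ⟨zmultiplesHom _ (wittClass F 1), hx _ (Or.inl rfl)⟩)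
    (ZMod.lift 2 ⟨zmultiplesHom _ (wittClass F s - wittClass F 1), hx _ (Or.inr rfl)⟩)
  have g1 : g (1, 0) = wittClass F 1 := by
    rw [AddMonoidHom.coprod_apply, map_zero, add_zero, ← Int.cast_one, ZMod.lift_coe]
    exact one_zsmul _
  have g2 : g (0, 1) = wittClass F s - wittClass F 1 := by
    rw [AddMonoidHom.coprod_apply, map_zero, zero_add, ← Int.cast_one, ZMod.lift_coe]
    exact one_zsmul _
  have hgf : g.comp (lift (mapTwo h)) = AddMonoidHom.id _ := hom_ext fun a => by
    rw [AddMonoidHom.comp_apply, lift_wittClass]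
    show g (1, _) = wittClass F a
    rcases qchar_cases a with ha | ha
    · rw [if_pos ha, g1]
      exact wittClass_eq_of_qchar (qchar_one.trans ha.symm)
    · rw [if_neg (by omega), show ((1, 1) : ZMod 2 × ZMod 2) = (1, 0) + (0, 1) from rfl, map_add,
        g1, g2, add_sub_cancel]
      exact wittClass_eq_of_qchar (hs.trans ha.symm)
  have hfg : ∀ z, lift (mapTwo h) (g z) = z := by
    have e1 : lift (mapTwo h) (g (1, 0)) = (1, 0) := by
      rw [g1, lift_wittClass]
      exact Prod.ext rfl (if_pos qchar_one)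
    have e2 : lift (mapTwo h) (g (0, 1)) = (0, 1) := by
      rw [g2, map_sub, lift_wittClass, lift_wittClass]
      show ((1 : ZMod 2), if qchar s = 1 then (0 : ZMod 2) else 1) -
        (1, if qchar (1 : Fˣ) = 1 then (0 : ZMod 2) else 1) = _
      rw [if_pos qchar_one, if_neg (by omega)]
      simp
    have hz : ∀ z : ZMod 2 × ZMod 2,
        z = z.1.val • ((1, 0) : ZMod 2 × ZMod 2) + z.2.val • ((0, 1) : ZMod 2 × ZMod 2) := by
      decide
    intro z
    conv_lhs => rw [hz z]
    rw [map_add, map_nsmul, map_nsmul, map_add, map_nsmul, map_nsmul, e1, e2, ← hz z]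
  exact ⟨(lift (mapTwo h)).toAddEquiv g hgf (AddMonoidHom.ext hfg)⟩

/-- **`W = ℤ/4`** when `-1` is not a square. -/
theorem nonempty_equiv_four (h : qchar (-1 : Fˣ) = -1) : Nonempty (W F ≃+ ZMod 4) := by
  have hns : ¬ IsSquare (-1 : F) := fun hsq => by
    rw [qchar, if_pos (by simpa using hsq)] at h
    omega
  have h4 : zmultiplesHom (W F) (wittClass F 1) ((4 : ℕ) : ℤ) = 0 := by
    classical
    have := Fintype.ofFinite F
    obtain ⟨x, y, hxy⟩ : ∃ x y : F, x ^ 2 + y ^ 2 = -1 := by
      obtain ⟨p, hp⟩ := CharP.exists F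
      have := Fact.mk (CharP.char_is_prime F p)
      obtain ⟨x, y, hxy⟩ := ZMod.sq_add_sq p (-1)
      exact ⟨ZMod.castHom (dvd_refl p) F x, ZMod.castHom (dvd_refl p) F y, by
        rw [← map_pow, ← map_pow, ← map_add, hxy, map_neg, map_one]⟩
    have hx : x ≠ 0 := fun e => hns ⟨y, by rw [← hxy, e]; ring⟩
    have hy : y ≠ 0 := fun e => hns ⟨x, by rw [← hxy, e]; ring⟩
    have hb := (wittClass F).binary (Units.mk0 x hx ^ 2) (Units.mk0 y hy ^ 2) (-1)
      (by simpa using hxy)
    rw [(wittClass F).sq, (wittClass F).sq, ← mul_pow, mul_comm, (wittClass F).mul_sq,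
      (wittClass F).apply_neg] at hb
    rw [zmultiplesHom_apply, natCast_zsmul, show (4 : ℕ) = 2 + 2 from rfl, add_nsmul, two_nsmul]
    conv_lhs => arg 1; rw [hb]
    abel
  let g : ZMod 4 →+ W F := ZMod.lift 4 ⟨zmultiplesHom _ (wittClass F 1), h4⟩
  have hg : ∀ k : ℤ, g k = k • wittClass F 1 := fun k => by
    rw [ZMod.lift_coe]
    rfl
  have hgf : g.comp (lift (mapFour h)) = AddMonoidHom.id _ := hom_ext fun a => by
    rw [AddMonoidHom.comp_apply, lift_wittClass]
    show g (qchar a : ZMod 4) = wittClass F a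
    rw [hg]
    rcases qchar_cases a with ha | ha
    · rw [ha, one_zsmul]
      exact wittClass_eq_of_qchar (qchar_one.trans ha.symm)
    · rw [ha, neg_one_zsmul, ← (wittClass F).apply_neg]
      exact wittClass_eq_of_qchar (h.trans ha.symm)
  have hfg : ∀ z, lift (mapFour h) (g z) = z := fun z => by
    obtain ⟨k, rfl⟩ := ZMod.intCast_surjective z
    rw [hg, map_zsmul, lift_wittClass]
    show k • (qchar (1 : Fˣ) : ZMod 4) = _
    rw [qchar_one, Int.cast_one, zsmul_one]
  exact ⟨(lift (mapFour h)).toAddEquiv g hgf (AddMonoidHom.ext hfg)⟩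

/-- **The Witt group of a finite field of odd characteristic.** -/
theorem witt_finiteField (h2 : (2 : F) ≠ 0) :
    (IsSquare (-1 : F) → Nonempty (W F ≃+ ZMod 2 × ZMod 2)) ∧
      (¬ IsSquare (-1 : F) → Nonempty (W F ≃+ ZMod 4)) := by
  refine ⟨fun hs => nonempty_equiv_two h2 ?_, fun hs => nonempty_equiv_four ?_⟩
  · rw [qchar, if_pos]
    simpa using hs
  · rw [qchar, if_neg]
    simpa using hs

end Fermat.Agent.WittRat
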